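import Fermat.Agent.GR.E.BR10

/-!
GR-D, top layer: small lemmas (B).
-/

set_option autoImplicit false
set_option synthInstance.maxHeartbeats 400000

noncomputable section

namespace Fermat.Agent.GR.D.Top

open Fermat.Agent.GR Fermat.Agent.GR.E ModularCurve AlgebraicCurve IntermediateField Polynomial

/-- TOP-C0. `X (X + c)` is squarefree over a field in which `c ≠ 0`. -/
theorem squarefree_X_mul_X_add (c : ℤ) (k : Type) [Field k] (hc : (c : k) ≠ 0) :
    Squarefree (((X : ℤ[X]) * (X + C c)).map (Int.castRingHom k)) := by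
  have h1 : ((X : ℤ[X]) * (X + C c)).map (Int.castRingHom k)
      = (X : k[X]) * (X + C (c : k)) := by
    simp [Polynomial.map_mul, Polynomial.map_add]
  rw [h1]
  have hcop : IsCoprime (X : k[X]) (X + C (c : k)) := by
    refine ⟨-C ((c : k)⁻¹), C ((c : k)⁻¹), ?_⟩
    have : C ((c : k)⁻¹) * C (c : k) = (1 : k[X]) := by
      rw [← C_mul, inv_mul_cancel₀ hc, C_1]
    linear_combination this
  rw [squarefree_mul_iff]
  exact ⟨hcop.isRelPrime, irreducible_X.squarefree,
    (irreducible_of_degree_eq_one (degree_X_add_C _)).squarefree⟩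

/-- TOP-C0'. `X (c X + 1)` is squarefree over every field. -/
theorem squarefree_X_mul_C_mul_X_add_one (c : ℤ) (k : Type) [Field k] :
    Squarefree (((X : ℤ[X]) * (C c * X + 1)).map (Int.castRingHom k)) := by
  have h1 : ((X : ℤ[X]) * (C c * X + 1)).map (Int.castRingHom k)
      = (X : k[X]) * (C (c : k) * X + 1) := by
    simp [Polynomial.map_mul, Polynomial.map_add]
  rw [h1]
  have hcop : IsCoprime (X : k[X]) (C (c : k) * X + 1) := by
    refine ⟨-C (c : k), 1, ?_⟩
    ring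
  rw [squarefree_mul_iff]
  refine ⟨hcop.isRelPrime, irreducible_X.squarefree, ?_⟩
  by_cases hc : (c : k) = 0
  · rw [hc]
    simp
  · have hdeg : (C (c : k) * X + 1 : k[X]).degree = 1 := by
      have := degree_linear (R := k) (a := (c : k)) (b := 1) hc
      simpa using this
    exact (irreducible_of_degree_eq_one hdeg).squarefree

/-- TOP-M1: auxiliary level. -/
theorem exists_level (N : ℕ) [NeZero N] (r : ℕ) (hr : r.Prime) (ℓ : ℕ) (hℓN : ¬ ℓ ∣ N)
    (hℓp : ℓ.Prime) (hℓr : ℓ ≠ r) (hk : ∃ k : ℕ, r + 1 = ℓ ^ k) :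
    ∃ N' : ℕ, N' ≠ 0 ∧ N ∣ N' ∧ r ∣ N' ∧ ¬ ℓ ∣ N' ∧
      ∃ k : ℕ, (FF Qb N).relfinrank (FF Qb N') = ℓ ^ k := by
  by_cases h : r ∣ N
  · exact ⟨N, NeZero.ne N, dvd_rfl, h, hℓN, 0, by rw [relfinrank_self, pow_zero]⟩
  · obtain ⟨k, hk⟩ := hk
    refine ⟨N * r, mul_ne_zero (NeZero.ne N) hr.ne_zero, Dvd.intro r rfl, Dvd.intro_left N rfl,
      ?_, k, ?_⟩
    · intro hd
      rcases (Nat.Prime.dvd_mul hℓp).1 hd with h1 | h1
      · exact hℓN h1
      · exact hℓr ((Nat.prime_dvd_prime_iff_eq hℓp hr).1 h1)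
    · rw [relfinrank_FF_mul_prime N r hr h, hk]

end Fermat.Agent.GR.D.Top
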