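import Fermat.Agent.GR.D.Top.Generic
import Fermat.Agent.GR.D.Top.SmallB

/-!
GR-D, top layer: the base function `j` (`ℓ ≥ 5`).
-/

set_option autoImplicit false
set_option synthInstance.maxHeartbeats 400000

noncomputable section

namespace Fermat.Agent.GR.D.Top

open Fermat.Agent.GR Fermat.Agent.GR.E ModularCurve AlgebraicCurve IntermediateField Polynomial

theorem CaseJ_baseFn (K : Type) [Field K] : baseFn K (jqModC ℤ) = jqModC K :=
  coeffMap_jqModC (Int.castRingHom K)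

theorem CaseJ_mem (N : ℕ) (K : Type) [Field K] : baseFn K (jqModC ℤ) ∈ FF K N := by
  rw [CaseJ_baseFn]
  exact jqModC_mem_full K N

theorem CaseJ_eq (N : ℕ) (K : Type) [Field K] :
    (⟨baseFn K (jqModC ℤ), CaseJ_mem N K⟩ : FF K N) = C.jF K N :=
  Subtype.ext (CaseJ_baseFn K)

theorem CaseJ_ne_zero (ℓ : ℕ) (hℓ : ℓ.Prime) (h5 : 5 ≤ ℓ) (k : Type) [Field k] [CharP k ℓ] :
    (((-1728 : ℤ)) : k) ≠ 0 := by
  intro h
  rw [CharP.intCast_eq_zero_iff k ℓ] at h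
  have h1 : (ℓ : ℤ) ∣ 1728 := (dvd_neg).mp h
  have h2 : ℓ ∣ 1728 := by exact_mod_cast h1
  have h3 : ℓ ∣ 2 ^ 6 * 3 ^ 3 := by norm_num; exact h2
  rcases (hℓ.dvd_mul).mp h3 with h4 | h4
  · have := Nat.le_of_dvd (by norm_num) (hℓ.dvd_of_dvd_pow h4)
    omega
  · have := Nat.le_of_dvd (by norm_num) (hℓ.dvd_of_dvd_pow h4)
    omega

/-- TOP-C1. -/
theorem hasModel_j (N : ℕ) [NeZero N] (ℓ : ℕ) (hℓ : ℓ.Prime) (h5 : 5 ≤ ℓ) (hℓN : ¬ ℓ ∣ N)
    (A : ValuationSubring Qb) (hA : A.LiesOverPrime ℓ) : HasModel A N (jqModC ℤ) := by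
  refine hasModel_of N ℓ hℓ hℓN A hA (jqModC ℤ) (coeff_jqModC_neg_one ℤ)
    (fun K _ _ => CaseJ_mem N K) ?_ (X * (X + C (-1728))) (X * (C (-1728) * X + 1)) ?_ ?_ ?_ ?_
  · intro K _ _
    rw [CaseJ_eq]
    exact mem_adjoin_simple_self K _
  · intro k _ _
    exact squarefree_X_mul_X_add (-1728) k (CaseJ_ne_zero ℓ hℓ h5 k)
  · intro k _ _
    exact squarefree_X_mul_C_mul_X_add_one (-1728) k
  · intro v a ha
    rw [CaseJ_eq]
    refine D.ord_jF_sub_le_one N v a ?_ ?_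
    · rintro rfl
      exact ha (by simp)
    · rintro rfl
      refine ha ?_
      rw [map_mul, map_add, aeval_X, aeval_C]
      simp
  · intro v a ha
    rw [CaseJ_eq]
    refine D.ord_jF_inv_sub_le_one N v a ?_ ?_
    · rintro rfl
      exact ha (by simp)
    · rintro rfl
      refine ha ?_
      rw [map_mul, map_add, map_mul, aeval_X, aeval_C, map_one]
      simp

end Fermat.Agent.GR.D.Top
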