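import Fermat.Agent.GR.D.Vert.Fin
import Fermat.Agent.GR.E.Model

/-!
GR-D, top layer (0): admissible parameters `t = baseFn L H` and `t⁻¹`.
-/

set_option autoImplicit false
set_option synthInstance.maxHeartbeats 400000

noncomputable section

namespace Fermat.Agent.GR.D.Top

open Fermat.Agent.GR ModularCurve IntermediateField Polynomial Fermat.Agent.S28

variable {L : Type*} [Field L] (R : ValuationSubring L) [IsDiscreteValuationRing R] (N : ℕ)

theorem baseFn_eq_embL (H : LaurentSeries ℤ) :
    E.baseFn L H = embL R L (coeffMap (Int.castRingHom R) H) := by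
  unfold E.baseFn
  rw [coeffMap_coeffMap, RingHom.ext_int ((algebraMap R L).comp (Int.castRingHom R))
    (Int.castRingHom L)]

theorem gredFun_baseFn (H : LaurentSeries ℤ) :
    Vert.gredFun R (E.baseFn L H) = E.baseFn (IsLocalRing.ResidueField R) H := by
  rw [baseFn_eq_embL R, Vert.gredFun_emb]
  unfold E.baseFn
  rw [coeffMap_coeffMap, RingHom.ext_int ((IsLocalRing.residue R).comp (Int.castRingHom R))
    (Int.castRingHom (IsLocalRing.ResidueField R))]

theorem isParam_baseFn (H : LaurentSeries ℤ) (hmem : E.baseFn L H ∈ FF L N)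
    (htr : Transcendental (IsLocalRing.ResidueField R) (E.baseFn (IsLocalRing.ResidueField R) H))
    (hj : Vert.jFF N ∈ L⟮(⟨E.baseFn L H, hmem⟩ : FF L N)⟯) :
    Vert.IsParam R N ⟨E.baseFn L H, hmem⟩ where
  mem := by
    rw [Vert.mem_gaussO]
    change Vert.IsGInt R (E.baseFn L H)
    rw [baseFn_eq_embL R]
    exact Vert.isGInt_emb _
  transc := by
    change Function.Injective (evP _ (Vert.gredFun R (E.baseFn L H)))
    rw [gredFun_baseFn]
    exact transcendental_iff_injective.1 htr
  j_mem := hj

variable {R N}

theorem IsParam.inv {t : FF L N} (ht : Vert.IsParam R N t) : Vert.IsParam R N t⁻¹ := by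
  have hinj := ht.transc
  have htr : Transcendental (IsLocalRing.ResidueField R)
      (Vert.gredFun R (t : LaurentSeries L)) := transcendental_iff_injective.2 hinj
  have h0 : Vert.gredFun R (t : LaurentSeries L) ≠ 0 := by
    intro h
    rw [h] at htr
    exact htr (isAlgebraic_zero)
  have hG : Vert.IsGInt R (t : LaurentSeries L) := ht.mem
  refine ⟨?_, ?_, ?_⟩
  · rw [Vert.mem_gaussO, IntermediateField.coe_inv]
    exact hG.inv h0
  · rw [IntermediateField.coe_inv, Vert.gredFun_inv hG h0]
    apply transcendental_iff_injective.1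
    intro halg
    exact htr (by simpa using halg.inv)
  · have h1 : L⟮t⟯ ≤ L⟮t⁻¹⟯ := by
      rw [IntermediateField.adjoin_simple_le_iff]
      have := inv_mem (IntermediateField.mem_adjoin_simple_self L t⁻¹)
      rwa [inv_inv] at this
    exact h1 ht.j_mem

end Fermat.Agent.GR.D.Top
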