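import Fermat.Agent.GR.E.Model
import Fermat.Agent.GR.E.BR5
import Fermat.Agent.GR.E.M1

/-!
GR-D, top layer: small lemmas (A).
-/

set_option autoImplicit false
set_option synthInstance.maxHeartbeats 400000

noncomputable section

namespace Fermat.Agent.GR.D.Top

open Fermat.Agent.GR Fermat.Agent.GR.E ModularCurve AlgebraicCurve IntermediateField Polynomial

/-- TOP-G1. The residue field of `A ∩ L` has characteristic `ℓ`. -/
theorem charP_residueField (A : ValuationSubring Qb) (ℓ : ℕ) (hℓ : ℓ.Prime)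
    (hA : A.LiesOverPrime ℓ) (L : IntermediateField ℚ Qb) :
    CharP (IsLocalRing.ResidueField (A.comap (algebraMap L Qb))) ℓ := by
  have h0 : ((ℓ : ℕ) : IsLocalRing.ResidueField (A.comap (algebraMap L Qb))) = 0 := by
    have h1 : IsLocalRing.residue (A.comap (algebraMap L Qb))
        ((ℓ : ℕ) : A.comap (algebraMap L Qb)) = 0 := by
      rw [IsLocalRing.residue_eq_zero_iff]
      exact BR5_not_isUnit_natCast A ℓ hA L
    rwa [map_natCast] at h1
  obtain ⟨p, hp⟩ := CharP.exists (IsLocalRing.ResidueField (A.comap (algebraMap L Qb)))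
  have hdvd : p ∣ ℓ := (CharP.cast_eq_zero_iff _ p ℓ).1 h0
  rcases (Nat.Prime.eq_one_or_self_of_dvd hℓ p hdvd) with h1 | h1
  · exact absurd h1 (CharP.char_ne_one (IsLocalRing.ResidueField (A.comap (algebraMap L Qb))) p)
  · rwa [h1] at hp

/-- TOP-G2. -/
theorem baseFn_coeff (K : Type*) [Field K] (H : LaurentSeries ℤ) (n : ℤ) :
    (baseFn K H).coeff n = ((H.coeff n : ℤ) : K) := rfl

/-- TOP-G3. `h` and `h⁻¹` are Gauss integral. -/
theorem isGaussInt_baseFn {L : Type*} [Field L] (R : ValuationSubring L) (N : ℕ)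
    (H : LaurentSeries ℤ) (hlead : H.coeff (-1) = 1) (hmem : baseFn L H ∈ FF L N) :
    IsGaussInt R N ⟨baseFn L H, hmem⟩ ∧ IsGaussInt R N (⟨baseFn L H, hmem⟩ : FF L N)⁻¹ := by
  have hint : IsInt R (baseFn L H) := by
    intro n
    rw [baseFn_coeff]
    exact intCast_mem R _
  have hprim : IsPrim R (baseFn L H) := by
    refine ⟨hint, -1, ?_⟩
    rw [baseFn_coeff, hlead, Int.cast_one, ValuationSubring.mem_nonunits_iff, map_one]
    exact lt_irrefl _
  have hne : (⟨baseFn L H, hmem⟩ : FF L N) ≠ 0 := by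
    intro h
    have h1 : baseFn L H = 0 := congrArg Subtype.val h
    have h2 := baseFn_coeff L H (-1)
    rw [h1, hlead, HahnSeries.coeff_zero, Int.cast_one] at h2
    exact zero_ne_one h2
  refine ⟨⟨baseFn L H, 1, hmem, one_mem _, hint, M1_isPrim_one R, mul_one _⟩,
    ⟨1, baseFn L H, one_mem _, hmem, (M1_isPrim_one R).1, hprim, ?_⟩⟩
  have := inv_mul_cancel₀ hne
  exact congrArg Subtype.val this

/-- TOP-G4. -/
theorem transcendental_valuationSubring {L : Type*} [Field L] (R : ValuationSubring L)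
    {F : Type*} [Field F] [Algebra L F] {h : F} (ht : Transcendental L h) :
    Transcendental R h := by
  exact ht.restrictScalars (R := R) (S := L) Subtype.val_injective

end Fermat.Agent.GR.D.Top
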