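import Fermat.Agent.GR.D.Top.Chart
import Fermat.Agent.GR.D.Top.Param
import Fermat.Agent.GR.D.Top.Horiz
import Fermat.Agent.GR.E.M1
import Fermat.Agent.GR.D.Top.SmallA
import Fermat.Agent.Lib.Hauptmodul.Member

/-!
GR-D, top layer (3): `HasModel A N H` for a base function `H = q⁻¹ + ⋯ ∈ ℤ((q))`.
-/

set_option autoImplicit false
set_option synthInstance.maxHeartbeats 400000

noncomputable section

namespace Fermat.Agent.GR.D.Top

open Fermat.Agent.GR Fermat.Agent.GR.E ModularCurve AlgebraicCurve IntermediateField Polynomial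

/-- TOP-G5: the model over one number field. -/
theorem modelData_of {L : Type} [Field L] [CharZero L] [Algebra L Qb] [Algebra.IsAlgebraic L Qb]
    (R : ValuationSubring L) [IsDiscreteValuationRing R] (N : ℕ) [NeZero N] (ℓ : ℕ)
    (hℓ : ℓ.Prime) (hℓN : ¬ ℓ ∣ N) [CharP (IsLocalRing.ResidueField R) ℓ]
    (H : LaurentSeries ℤ) (hlead : H.coeff (-1) = 1)
    (hmem : ∀ (K : Type) [Field K] [CharZero K], baseFn K H ∈ FF K N)
    (hj : ∀ (K : Type) [Field K] [CharZero K],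
      C.jF K N ∈ K⟮(⟨baseFn K H, hmem K⟩ : FF K N)⟯)
    (T0 T1 : ℤ[X])
    (hT0 : ∀ (k : Type) [Field k] [CharP k ℓ], Squarefree (T0.map (Int.castRingHom k)))
    (hT1 : ∀ (k : Type) [Field k] [CharP k ℓ], Squarefree (T1.map (Int.castRingHom k)))
    (hor0 : ∀ (v : Place Qb (FF Qb N)) (a : Qb), aeval a T0 ≠ 0 →
      v.ord ((⟨baseFn Qb H, hmem Qb⟩ : FF Qb N) - algebraMap Qb (FF Qb N) a) ≤ 1)
    (hor1 : ∀ (v : Place Qb (FF Qb N)) (a : Qb), aeval a T1 ≠ 0 →
      v.ord ((⟨baseFn Qb H, hmem Qb⟩ : FF Qb N)⁻¹ - algebraMap Qb (FF Qb N) a) ≤ 1) :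
    ∃ 𝒪, ModelData R N ⟨baseFn L H, hmem L⟩ 𝒪 := by
  have : Fact ℓ.Prime := ⟨hℓ⟩
  set h : FF L N := ⟨baseFn L H, hmem L⟩ with hh
  have hbc : C.bc N (algebraMap L Qb) h = (⟨baseFn Qb H, hmem Qb⟩ : FF Qb N) := by
    apply Subtype.ext
    rw [C.coe_bc]
    change coeffMap (algebraMap L Qb) (coeffMap (Int.castRingHom L) H) =
      coeffMap (Int.castRingHom Qb) H
    rw [coeffMap_coeffMap, RingHom.ext_int ((algebraMap L Qb).comp (Int.castRingHom L))
      (Int.castRingHom Qb)]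
  have htrk : Transcendental (IsLocalRing.ResidueField R)
      (baseFn (IsLocalRing.ResidueField R) H) := by
    apply Fermat.Agent.Lib.Hauptmodul.transcendental_of_coeff_neg_one
    rw [baseFn_coeff, hlead, Int.cast_one]
  have hp0 : Vert.IsParam R N h := isParam_baseFn R N H (hmem L) htrk (hj L)
  obtain ⟨D⟩ := Vert.nonempty_vdata (R := R) (L := L) N ℓ hℓN
  have hp1 : Vert.IsParam R N h⁻¹ := IsParam.inv hp0
  have hG := isGaussInt_baseFn R N H hlead (hmem L)
  have hmap : ∀ T : ℤ[X], (T.map (Int.castRingHom R)).map (IsLocalRing.residue R) =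
      T.map (Int.castRingHom (IsLocalRing.ResidueField R)) := by
    intro T
    rw [Polynomial.map_map, RingHom.ext_int ((IsLocalRing.residue R).comp (Int.castRingHom R))
      (Int.castRingHom (IsLocalRing.ResidueField R))]
  refine ⟨Vert.gaussO R N, ?_⟩
  exact
    { spec := Vert.gaussO_spec R N
      gauss := fun ϖ hϖ => gaussRing_of_spec R N _ (Vert.gaussO_spec R N) ϖ hϖ
      ne_zero := by
        intro h0
        have h1 : (baseFn L H).coeff (-1) = 0 := by
          have : (h : LaurentSeries L) = 0 := by rw [h0]; rfl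
          change (h : LaurentSeries L).coeff (-1) = 0
          rw [this]; rfl
        rw [baseFn_coeff, hlead, Int.cast_one] at h1
        exact one_ne_zero h1
      mem := (Vert.gaussO_spec R N _).2 hG.1
      inv_mem := (Vert.gaussO_spec R N _).2 hG.2
      transc := transcendental_valuationSubring R hp0.transcendental
      finite := Vert.finite hp0
      good0 := fun ϖ hϖ => goodChart D hp0 (T0.map (Int.castRingHom R))
        (by rw [hmap]; exact hT0 _)
        (horiz_of_ord R N h hp0.j_mem T0 (by rw [hbc]; exact hor0)) ϖ hϖ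
      good1 := fun ϖ hϖ => goodChart D hp1 (T1.map (Int.castRingHom R))
        (by rw [hmap]; exact hT1 _)
        (horiz_of_ord R N h⁻¹ hp1.j_mem T1 (by rw [map_inv₀, hbc]; exact hor1)) ϖ hϖ }

/-- TOP-G6. -/
theorem hasModel_of (N : ℕ) [NeZero N] (ℓ : ℕ) (hℓ : ℓ.Prime) (hℓN : ¬ ℓ ∣ N)
    (A : ValuationSubring Qb) (hA : A.LiesOverPrime ℓ)
    (H : LaurentSeries ℤ) (hlead : H.coeff (-1) = 1)
    (hmem : ∀ (K : Type) [Field K] [CharZero K], baseFn K H ∈ FF K N)
    (hj : ∀ (K : Type) [Field K] [CharZero K],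
      C.jF K N ∈ K⟮(⟨baseFn K H, hmem K⟩ : FF K N)⟯)
    (T0 T1 : ℤ[X])
    (hT0 : ∀ (k : Type) [Field k] [CharP k ℓ], Squarefree (T0.map (Int.castRingHom k)))
    (hT1 : ∀ (k : Type) [Field k] [CharP k ℓ], Squarefree (T1.map (Int.castRingHom k)))
    (hor0 : ∀ (v : Place Qb (FF Qb N)) (a : Qb), aeval a T0 ≠ 0 →
      v.ord ((⟨baseFn Qb H, hmem Qb⟩ : FF Qb N) - algebraMap Qb (FF Qb N) a) ≤ 1)
    (hor1 : ∀ (v : Place Qb (FF Qb N)) (a : Qb), aeval a T1 ≠ 0 →
      v.ord ((⟨baseFn Qb H, hmem Qb⟩ : FF Qb N)⁻¹ - algebraMap Qb (FF Qb N) a) ≤ 1) :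
    HasModel A N H := by
  have htr : Transcendental Qb (⟨baseFn Qb H, hmem Qb⟩ : FF Qb N) :=
    transcendental_of_mem_adjoin (transcendental_jF Qb N) (hj Qb)
  refine ⟨hmem, htr, finiteDimensional_FF_of_transcendental Qb N htr, ?_⟩
  intro L _ hdvr
  have := charP_residueField A ℓ hℓ hA L
  have : Algebra.IsAlgebraic ℚ Qb := AlgebraicClosure.isAlgebraic ℚ
  have : Algebra.IsAlgebraic L Qb := Algebra.IsAlgebraic.tower_top (K := ℚ) L
  exact modelData_of (A.comap (algebraMap L Qb)) N ℓ hℓ hℓN H hlead hmem hj T0 T1 hT0 hT1 hor0 hor1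

end Fermat.Agent.GR.D.Top
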